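import Fermat.Agent.GelfandRaikov.Corollaries
import Mathlib.MeasureTheory.Measure.Haar.Unique

/-!
# Matrix coefficients and Schur's lemma

On a unimodular group Haar measure is invariant under inversion, so a matrix coefficient is square
integrable if and only if the one with the two vectors exchanged is.  An operator commuting with an
irreducible unitary representation is a scalar.
-/

set_option autoImplicit false
set_option linter.unusedSectionVars false
set_option linter.style.haveILetI false

noncomputable section

open MeasureTheory MeasureTheory.Measure Topology Set Filter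
open scoped ComplexConjugate InnerProductSpace ENNReal

namespace FA.SquareIntegrable

variable {G : Type*} [Group G] [TopologicalSpace G] [IsTopologicalGroup G] [T2Space G]
  [LocallyCompactSpace G] [MeasurableSpace G] [BorelSpace G]

/-- Haar measure of a unimodular group is invariant under inversion. -/
theorem isInvInvariant_haar [(haar : Measure G).IsMulRightInvariant] :
    IsInvInvariant (haar : Measure G) := by
  set μ : Measure G := haar with hμ
  haveI : μ.Regular := by rw [hμ]; exact regular_haarMeasure
  constructor
  let c : ℝ≥0∞ := haarScalarFactor μ.inv μ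
  have hc : μ.inv = c • μ := isMulLeftInvariant_eq_smul_of_regular μ.inv μ
  have h2 : Measure.map Inv.inv (Measure.map Inv.inv μ) = c ^ 2 • μ := by
    rw [← inv_def μ, hc, Measure.map_smul, ← inv_def μ, hc, smul_smul, pow_two]
  have μeq : μ = c ^ 2 • μ := by
    rw [map_map continuous_inv.measurable continuous_inv.measurable] at h2
    simpa only [inv_involutive, Function.Involutive.comp_self, Measure.map_id] using h2
  let K : TopologicalSpace.PositiveCompacts G := Classical.arbitrary _
  have h3 : c ^ 2 * μ K = 1 ^ 2 * μ K := by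
    conv_rhs => rw [μeq]
    simp
  have h4 : c ^ 2 = 1 ^ 2 :=
    (ENNReal.mul_left_inj (measure_pos_of_nonempty_interior _ K.interior_nonempty).ne'
      K.isCompact.measure_lt_top.ne).1 h3
  rw [hc, (ENNReal.pow_right_strictMono two_ne_zero).injective h4, one_smul]

variable {H : Type*} [NormedAddCommGroup H] [InnerProductSpace ℂ H] [CompleteSpace H]

/-- The matrix coefficient. -/
def coeff (U : G →* (H →L[ℂ] H)) (v w : H) (g : G) : ℂ := ⟪U g v, w⟫_ℂ

theorem continuous_coeff {U : G →* (H →L[ℂ] H)} (hU : ∀ v, Continuous fun g => U g v) (v w : H) :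
    Continuous (coeff U v w) :=
  (hU v).inner continuous_const

theorem coeff_inv {U : G →* (H →L[ℂ] H)} (hu : ∀ g, U g ∈ unitary (H →L[ℂ] H)) (v w : H) (g : G) :
    coeff U v w g⁻¹ = conj (coeff U w v g) := by
  rw [coeff, coeff, inner_conj_symm, ← FA.GelfandRaikov.star_eq_inv U
    (fun g => FA.GelfandRaikov.norm_of_mem_unitary (hu g)), ContinuousLinearMap.star_eq_adjoint,
    ContinuousLinearMap.adjoint_inner_left]

theorem coeff_translate {U : G →* (H →L[ℂ] H)} (hu : ∀ g, U g ∈ unitary (H →L[ℂ] H)) (v w : H)
    (h g : G) : coeff U v (U h w) g = coeff U v w (h⁻¹ * g) := by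
  rw [coeff, coeff, map_mul, mul_apply_eq_comp, ← FA.GelfandRaikov.star_eq_inv U
    (fun g => FA.GelfandRaikov.norm_of_mem_unitary (hu g)), ContinuousLinearMap.star_eq_adjoint,
    ContinuousLinearMap.adjoint_inner_left]

/-- Exchanging the vectors keeps square integrability. -/
theorem memLp_coeff_symm [(haar : Measure G).IsMulRightInvariant] {U : G →* (H →L[ℂ] H)}
    (hu : ∀ g, U g ∈ unitary (H →L[ℂ] H)) {v w : H}
    (h : MemLp (coeff U v w) 2 (haar : Measure G)) :
    MemLp (coeff U w v) 2 (haar : Measure G) := by
  haveI := isInvInvariant_haar (G := G)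
  have h1 := (h.comp_measurePreserving (Measure.measurePreserving_inv (haar : Measure G))).star
  refine h1.ae_eq (.of_forall fun g => ?_)
  show conj (coeff U v w g⁻¹) = coeff U w v g
  rw [coeff_inv hu, Complex.conj_conj]

/-- **Schur's lemma.** -/
theorem exists_scalar {U : G →* (H →L[ℂ] H)} (hU : FA.GelfandRaikov.IsIrreducibleUnitary U)
    {S : H →L[ℂ] H} (h : ∀ g, Commute S (U g)) : ∃ z : ℂ, S = z • 1 := by
  have hstar : ∀ g, Commute (star S) (U g) := fun g => by
    have h1 := (h g⁻¹).star_star
    rwa [FA.GelfandRaikov.star_eq_inv U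
      (fun g => FA.GelfandRaikov.norm_of_mem_unitary (hU.mem_unitary g)), inv_inv] at h1
  have key : ∀ T : H →L[ℂ] H, IsSelfAdjoint T → (∀ g, Commute T (U g)) → ∃ z : ℂ, T = z • 1 :=
    fun T hT hc => hU.eq_scalar hT.isStarNormal hc fun g => by
      rw [hT.star_eq]
      exact hc g
  obtain ⟨a, ha⟩ := key (S + star S) (IsSelfAdjoint.add_star_self S)
    fun g => (h g).add_left (hstar g)
  obtain ⟨b, hb⟩ := key (Complex.I • (S - star S)) (by
    rw [IsSelfAdjoint, star_smul, star_sub, star_star, Complex.star_def, Complex.conj_I, neg_smul,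
      ← smul_neg, neg_sub]) fun g => ((h g).sub_left (hstar g)).smul_left _
  refine ⟨(a - Complex.I * b) / 2, ?_⟩
  have e : (2 : ℂ) • S = (S + star S) - Complex.I • (Complex.I • (S - star S)) := by
    rw [smul_smul, Complex.I_mul_I, neg_one_smul, two_smul]
    abel
  rw [ha, hb, smul_smul, ← sub_smul] at e
  rw [← inv_smul_smul₀ (two_ne_zero' ℂ) S, e, smul_smul, div_eq_inv_mul]

end FA.SquareIntegrable

end
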