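import Fermat.Agent.GelfandRaikov.Regular
import Fermat.Agent.SquareIntegrable.Basic
import Mathlib.Analysis.InnerProductSpace.ProdL2
import Mathlib.MeasureTheory.Function.ConvergenceInMeasure

/-!
# One square-integrable coefficient gives all

The pairs of a vector `w` and a square integrable function equal almost everywhere to the
coefficient of `(v, w)` form a closed invariant subspace of the sum of the space and `L²`.
The projection to the first summand times its adjoint is a nonzero scalar, so the projection is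
onto and the map to the coefficient is bounded.
-/

set_option autoImplicit false
set_option linter.unusedSectionVars false
set_option linter.style.haveILetI false

noncomputable section

open MeasureTheory MeasureTheory.Measure Topology Set Filter
open scoped ComplexConjugate InnerProductSpace ENNReal

namespace FA.SquareIntegrable

open FA.GelfandRaikov

variable {G : Type*} [Group G] [TopologicalSpace G] [IsTopologicalGroup G] [T2Space G]
  [LocallyCompactSpace G] [MeasurableSpace G] [BorelSpace G]
  {H : Type*} [NormedAddCommGroup H] [InnerProductSpace ℂ H] [CompleteSpace H]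

theorem coeff_add (U : G →* (H →L[ℂ] H)) (v w w' : H) :
    coeff U v (w + w') = coeff U v w + coeff U v w' :=
  funext fun _ => inner_add_right _ _ _

theorem coeff_smul (U : G →* (H →L[ℂ] H)) (v w : H) (z : ℂ) :
    coeff U v (z • w) = z • coeff U v w :=
  funext fun _ => inner_smul_right _ _ _

/-- The graph of the map to the coefficient. -/
def graph (U : G →* (H →L[ℂ] H)) (v : H) : Submodule ℂ (WithLp 2 (H × HaarL2 G)) where
  carrier := {x | (x.snd : G → ℂ) =ᵐ[(haar : Measure G)] coeff U v x.fst}
  add_mem' {x y} hx hy := by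
    show ((x + y).snd : G → ℂ) =ᵐ[_] coeff U v (x + y).fst
    rw [WithLp.add_snd, WithLp.add_fst, coeff_add]
    have hx' : (x.snd : G → ℂ) =ᵐ[(haar : Measure G)] coeff U v x.fst := hx
    have hy' : (y.snd : G → ℂ) =ᵐ[(haar : Measure G)] coeff U v y.fst := hy
    exact (Lp.coeFn_add _ _).trans (hx'.add hy')
  zero_mem' := by
    show ((0 : WithLp 2 (H × HaarL2 G)).snd : G → ℂ) =ᵐ[_]
      coeff U v (0 : WithLp 2 (H × HaarL2 G)).fst
    rw [WithLp.zero_snd, WithLp.zero_fst]
    refine (Lp.coeFn_zero _ _ _).trans (.of_forall fun g => ?_)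
    simp [coeff]
  smul_mem' z x hx := by
    show ((z • x).snd : G → ℂ) =ᵐ[_] coeff U v (z • x).fst
    rw [WithLp.smul_snd, WithLp.smul_fst, coeff_smul]
    have hx' : (x.snd : G → ℂ) =ᵐ[(haar : Measure G)] coeff U v x.fst := hx
    exact (Lp.coeFn_smul _ _).trans (hx'.const_smul z)

theorem isClosed_graph (U : G →* (H →L[ℂ] H)) (v : H) :
    IsClosed (graph U v : Set (WithLp 2 (H × HaarL2 G))) := by
  refine isClosed_of_closure_subset fun x hx => ?_
  obtain ⟨y, hy, hlim⟩ := mem_closure_iff_seq_limit.1 hx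
  have h1 : Tendsto (fun n => (y n).fst) atTop (𝓝 x.fst) :=
    ((WithLp.prod_continuous_ofLp 2 H (HaarL2 G)).fst.tendsto x).comp hlim
  have h2 : Tendsto (fun n => (y n).snd) atTop (𝓝 x.snd) :=
    ((WithLp.prod_continuous_ofLp 2 H (HaarL2 G)).snd.tendsto x).comp hlim
  obtain ⟨ns, hns, hae⟩ := (tendstoInMeasure_of_tendsto_Lp h2).exists_seq_tendsto_ae
  show (x.snd : G → ℂ) =ᵐ[_] coeff U v x.fst
  filter_upwards [hae, ae_all_iff.2 fun n => hy (ns n)] with g hg hgn
  refine tendsto_nhds_unique hg ?_
  simp only [hgn]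
  exact tendsto_const_nhds.inner (h1.comp hns.tendsto_atTop)

/-- The graph is invariant under the pair of representations. -/
theorem graph_translate {U : G →* (H →L[ℂ] H)} (hu : ∀ g, U g ∈ unitary (H →L[ℂ] H)) (v : H)
    (h : G) {x : WithLp 2 (H × HaarL2 G)} (hx : x ∈ graph U v) :
    WithLp.toLp 2 (U h x.fst, leftTranslation h x.snd) ∈ graph U v := by
  show (leftTranslation h x.snd : G → ℂ) =ᵐ[_] coeff U v (U h x.fst)
  refine (leftTranslation_coe h x.snd).trans ?_
  refine ((measurePreserving_mul_left (haar : Measure G) h⁻¹).quasiMeasurePreserving.ae hx).mono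
    fun g hg => ?_
  refine hg.trans ?_
  rw [coeff_translate hu]

/-- **All coefficients from one.** -/
theorem exists_coeffOp {U : G →* (H →L[ℂ] H)} (hU : IsIrreducibleUnitary U) {v w₀ : H}
    (hw₀ : w₀ ≠ 0) (hm : MemLp (coeff U v w₀) 2 (haar : Measure G)) :
    ∃ T : H →L[ℂ] HaarL2 G, (∀ w, (T w : G → ℂ) =ᵐ[(haar : Measure G)] coeff U v w) ∧
      ∀ h w, T (U h w) = leftTranslation h (T w) := by
  haveI : CompleteSpace (graph U v) := (isClosed_graph U v).completeSpace_coe
  set fstL : WithLp 2 (H × HaarL2 G) →L[ℂ] H := WithLp.fstL 2 ℂ H (HaarL2 G)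
  set p : graph U v →L[ℂ] H := fstL.comp (graph U v).subtypeL with hp
  have hpx : ∀ x : graph U v, p x = (x : WithLp 2 (H × HaarL2 G)).fst := fun x => rfl
  set R : G → graph U v → graph U v := fun h x =>
    ⟨WithLp.toLp 2 (U h (x : WithLp 2 (H × HaarL2 G)).fst,
      leftTranslation h (x : WithLp 2 (H × HaarL2 G)).snd),
      graph_translate hU.mem_unitary v h x.2⟩ with hR
  have hisoU : ∀ g u, ‖U g u‖ = ‖u‖ := fun g => norm_of_mem_unitary (hU.mem_unitary g)
  have hmove : ∀ (h : G) (x y : graph U v), ⟪x, R h⁻¹ y⟫_ℂ = ⟪R h x, y⟫_ℂ := fun h x y => by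
    simp only [Submodule.coe_inner, hR, WithLp.prod_inner_apply]
    rw [← star_eq_inv U hisoU h, ← star_eq_inv leftTranslation norm_leftTranslation h,
      ContinuousLinearMap.star_eq_adjoint, ContinuousLinearMap.star_eq_adjoint,
      ContinuousLinearMap.adjoint_inner_right, ContinuousLinearMap.adjoint_inner_right]
    rfl
  have hcomm : ∀ h w, ContinuousLinearMap.adjoint p (U h w) =
      R h (ContinuousLinearMap.adjoint p w) := fun h w => by
    refine ext_inner_right ℂ fun x => ?_
    rw [ContinuousLinearMap.adjoint_inner_left, ← hmove, ContinuousLinearMap.adjoint_inner_left,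
      hpx, hpx, hR]
    simp only [WithLp.toLp_fst]
    rw [← star_eq_inv U hisoU h, ContinuousLinearMap.star_eq_adjoint,
      ContinuousLinearMap.adjoint_inner_right]
  obtain ⟨c, hc⟩ := exists_scalar hU (S := p.comp (ContinuousLinearMap.adjoint p)) fun h => by
    refine ContinuousLinearMap.ext fun w => ?_
    show p (ContinuousLinearMap.adjoint p (U h w)) = U h (p (ContinuousLinearMap.adjoint p w))
    rw [hcomm, hpx, hpx]
    rfl
  have hc0 : c ≠ 0 := fun e => by
    rw [e, zero_smul] at hc
    have hz : ∀ w, ContinuousLinearMap.adjoint p w = 0 := fun w => by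
      have h := ContinuousLinearMap.adjoint_inner_left p (ContinuousLinearMap.adjoint p w) w
      rw [show p (ContinuousLinearMap.adjoint p w) = 0 from congrArg (fun S => S w) hc,
        inner_zero_right, inner_self_eq_zero] at h
      exact h
    have hx : (WithLp.toLp 2 (w₀, hm.toLp _) : WithLp 2 (H × HaarL2 G)) ∈ graph U v :=
      hm.coeFn_toLp
    have h := ContinuousLinearMap.adjoint_inner_left p ⟨_, hx⟩ w₀
    rw [hz, inner_zero_left, hpx] at h
    exact hw₀ (inner_self_eq_zero.1 h.symm)
  set sndL : WithLp 2 (H × HaarL2 G) →L[ℂ] HaarL2 G := WithLp.sndL 2 ℂ H (HaarL2 G)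
  set T : H →L[ℂ] HaarL2 G :=
    (sndL.comp (graph U v).subtypeL).comp (ContinuousLinearMap.adjoint p ∘L (c⁻¹ • 1)) with hT
  have hTx : ∀ w, T w = (ContinuousLinearMap.adjoint p (c⁻¹ • w) : WithLp 2 (H × HaarL2 G)).snd :=
    fun w => rfl
  refine ⟨T, fun w => ?_, fun h w => ?_⟩
  · have h1 : p (ContinuousLinearMap.adjoint p (c⁻¹ • w)) = w := by
      have := congrArg (fun S : H →L[ℂ] H => S (c⁻¹ • w)) hc
      simp only [ContinuousLinearMap.comp_apply, _root_.smul_apply, one_apply_eq_self] at this
      rw [this, smul_smul, mul_inv_cancel₀ hc0, one_smul]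
    have h2 : ((ContinuousLinearMap.adjoint p (c⁻¹ • w) : WithLp 2 (H × HaarL2 G)).snd : G → ℂ)
        =ᵐ[(haar : Measure G)] coeff U v
          (ContinuousLinearMap.adjoint p (c⁻¹ • w) : WithLp 2 (H × HaarL2 G)).fst :=
      (ContinuousLinearMap.adjoint p (c⁻¹ • w)).2
    rw [← hpx, h1] at h2
    exact h2
  · rw [hTx, hTx, ← map_smul, hcomm]
    rfl

end FA.SquareIntegrable

end
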