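import Fermat.Agent.SquareIntegrable.Graph
import Mathlib.Analysis.InnerProductSpace.PiL2

/-!
# Orthogonality relations and the formal degree

The adjoint of one map to coefficients composed with another commutes with the representation, hence
is a scalar; exchanging the two vectors by inversion makes the scalar a multiple of their inner
product.  For two inequivalent representations the composite vanishes.
-/

set_option autoImplicit false
set_option linter.unusedSectionVars false
set_option linter.style.haveILetI false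

noncomputable section

open MeasureTheory MeasureTheory.Measure Topology Set Filter
open scoped ComplexConjugate InnerProductSpace ENNReal

namespace FA.SquareIntegrable

open FA.GelfandRaikov

variable {G : Type*} [Group G] [TopologicalSpace G] [IsTopologicalGroup G] [T2Space G]
  [LocallyCompactSpace G] [MeasurableSpace G] [BorelSpace G]

/-- Irreducible unitary with some nonzero square integrable coefficient. -/
structure IsSquareIntegrableRep {H : Type*} [NormedAddCommGroup H] [InnerProductSpace ℂ H]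
    [CompleteSpace H] (U : G →* (H →L[ℂ] H)) : Prop where
  irreducible : IsIrreducibleUnitary U
  exists_memLp : ∃ v w : H, coeff U v w ≠ 0 ∧ MemLp (coeff U v w) 2 (haar : Measure G)

/-- The adjoint of an intertwiner intertwines. -/
theorem adjoint_intertwine {H K : Type*} [NormedAddCommGroup H] [InnerProductSpace ℂ H]
    [CompleteSpace H] [NormedAddCommGroup K] [InnerProductSpace ℂ K] [CompleteSpace K]
    {U : G →* (H →L[ℂ] H)} {V : G →* (K →L[ℂ] K)} (hU : ∀ g v, ‖U g v‖ = ‖v‖)
    (hV : ∀ g v, ‖V g v‖ = ‖v‖) {A : H →L[ℂ] K} (hA : ∀ g v, A (U g v) = V g (A v)) (g : G)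
    (y : K) : ContinuousLinearMap.adjoint A (V g y) = U g (ContinuousLinearMap.adjoint A y) := by
  refine ext_inner_right ℂ fun x => ?_
  have hUa : ∀ a b : H, ⟪U g a, b⟫_ℂ = ⟪a, U g⁻¹ b⟫_ℂ := fun a b => by
    rw [← star_eq_inv U hU g, ContinuousLinearMap.star_eq_adjoint,
      ContinuousLinearMap.adjoint_inner_right]
  have hVa : ∀ a b : K, ⟪V g a, b⟫_ℂ = ⟪a, V g⁻¹ b⟫_ℂ := fun a b => by
    rw [← star_eq_inv V hV g, ContinuousLinearMap.star_eq_adjoint,
      ContinuousLinearMap.adjoint_inner_right]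
  rw [ContinuousLinearMap.adjoint_inner_left, hVa, ← hA, hUa,
    ContinuousLinearMap.adjoint_inner_left]

variable {H : Type*} [NormedAddCommGroup H] [InnerProductSpace ℂ H] [CompleteSpace H]
  {U : G →* (H →L[ℂ] H)} [(haar : Measure G).IsMulRightInvariant]

/-- **Every coefficient is square integrable.** -/
theorem IsSquareIntegrableRep.exists_op (hS : IsSquareIntegrableRep U) (v : H) :
    ∃ T : H →L[ℂ] HaarL2 G, (∀ w, (T w : G → ℂ) =ᵐ[(haar : Measure G)] coeff U v w) ∧
      ∀ h w, T (U h w) = leftTranslation h (T w) := by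
  obtain ⟨v₀, w₀, hne, hm⟩ := hS.exists_memLp
  have hw₀ : w₀ ≠ 0 := fun e => hne (funext fun g => by simp [coeff, e])
  have hv₀ : v₀ ≠ 0 := fun e => hne (funext fun g => by simp [coeff, e])
  obtain ⟨T₀, hT₀, -⟩ := exists_coeffOp hS.irreducible hw₀ hm
  exact exists_coeffOp hS.irreducible hv₀
    (memLp_coeff_symm hS.irreducible.mem_unitary ((Lp.memLp (T₀ v)).ae_eq (hT₀ v)))

theorem IsSquareIntegrableRep.memLp (hS : IsSquareIntegrableRep U) (v w : H) :
    MemLp (coeff U v w) 2 (haar : Measure G) :=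
  let ⟨T, hT, _⟩ := hS.exists_op v
  (Lp.memLp (T w)).ae_eq (hT w)

/-- The map to the coefficients. -/
def coeffL2 (hS : IsSquareIntegrableRep U) (v : H) : H →L[ℂ] HaarL2 G := (hS.exists_op v).choose

theorem coeffL2_coe (hS : IsSquareIntegrableRep U) (v w : H) :
    (coeffL2 hS v w : G → ℂ) =ᵐ[(haar : Measure G)] coeff U v w :=
  (hS.exists_op v).choose_spec.1 w

theorem coeffL2_translate (hS : IsSquareIntegrableRep U) (v : H) (h : G) (w : H) :
    coeffL2 hS v (U h w) = leftTranslation h (coeffL2 hS v w) :=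
  (hS.exists_op v).choose_spec.2 h w

variable {H' : Type*} [NormedAddCommGroup H'] [InnerProductSpace ℂ H'] [CompleteSpace H']
  {U' : G →* (H' →L[ℂ] H')}

theorem inner_coeffL2 (hS : IsSquareIntegrableRep U) (hS' : IsSquareIntegrableRep U') (v w : H)
    (v' w' : H') : ⟪coeffL2 hS' v' w', coeffL2 hS v w⟫_ℂ =
      ∫ g, conj (coeff U' v' w' g) * coeff U v w g ∂(haar : Measure G) := by
  rw [L2.inner_def]
  refine integral_congr_ae ?_
  filter_upwards [coeffL2_coe hS v w, coeffL2_coe hS' v' w'] with g h1 h2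
  rw [h1, h2, RCLike.inner_apply, mul_comm]

/-- The composite with an adjoint intertwines. -/
theorem composite_intertwine (hS : IsSquareIntegrableRep U) (hS' : IsSquareIntegrableRep U')
    (v : H) (v' : H') (g : G) (w : H) :
    (ContinuousLinearMap.adjoint (coeffL2 hS' v')).comp (coeffL2 hS v) (U g w) =
      U' g ((ContinuousLinearMap.adjoint (coeffL2 hS' v')).comp (coeffL2 hS v) w) := by
  show ContinuousLinearMap.adjoint (coeffL2 hS' v') (coeffL2 hS v (U g w)) = _
  rw [coeffL2_translate]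
  exact adjoint_intertwine (fun g => norm_of_mem_unitary (hS'.irreducible.mem_unitary g))
    norm_leftTranslation (coeffL2_translate hS' v') g _

theorem coeffL2_ne_zero (hS : IsSquareIntegrableRep U) {u : H} (hu : u ≠ 0) :
    coeffL2 hS u u ≠ 0 := fun e => by
  have h := (coeffL2_coe hS u u).symm.trans (e ▸ Lp.coeFn_zero ℂ 2 (haar : Measure G))
  have h1 := congrFun ((Continuous.ae_eq_iff_eq _
    (continuous_coeff hS.irreducible.continuous_apply u u) continuous_zero).1 h) 1
  simp only [coeff, map_one, one_apply_eq_self, Pi.zero_apply, inner_self_eq_zero] at h1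
  exact hu h1

/-- **The orthogonality relations.** -/
theorem IsSquareIntegrableRep.exists_formalDegree (hS : IsSquareIntegrableRep U) :
    ∃ d : ℝ, 0 < d ∧ ∀ v w v' w' : H,
      ∫ g, conj (coeff U v' w' g) * coeff U v w g ∂(haar : Measure G) =
        (d : ℂ)⁻¹ * ⟪v, v'⟫_ℂ * ⟪w', w⟫_ℂ := by
  haveI := isInvInvariant_haar (G := G)
  have hB : ∀ v v' : H, ∃ z : ℂ,
      (ContinuousLinearMap.adjoint (coeffL2 hS v')).comp (coeffL2 hS v) = z • 1 := fun v v' =>
    exists_scalar hS.irreducible fun g =>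
      ContinuousLinearMap.ext (composite_intertwine hS hS v v' g)
  choose B hB using hB
  have hint : ∀ v w v' w' : H, ∫ g, conj (coeff U v' w' g) * coeff U v w g ∂(haar : Measure G) =
      B v v' * ⟪w', w⟫_ℂ := fun v w v' w' => by
    rw [← inner_coeffL2 hS hS, ← ContinuousLinearMap.adjoint_inner_right]
    have h := congrArg (fun S : H →L[ℂ] H => S w) (hB v v')
    simp only [ContinuousLinearMap.comp_apply, _root_.smul_apply, one_apply_eq_self] at h
    rw [h, inner_smul_right]
  have hswap : ∀ v w v' w' : H, B v v' * ⟪w', w⟫_ℂ = B w' w * ⟪v, v'⟫_ℂ := fun v w v' w' => by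
    rw [← hint, ← hint w' v' w v, ← integral_inv_eq_self _ (haar : Measure G)]
    refine integral_congr_ae (.of_forall fun g => ?_)
    show conj (coeff U v' w' g⁻¹) * coeff U v w g⁻¹ = _
    rw [coeff_inv hS.irreducible.mem_unitary, coeff_inv hS.irreducible.mem_unitary,
      Complex.conj_conj, mul_comm]
  haveI := hS.irreducible.nontrivial
  obtain ⟨u, hu⟩ := exists_ne (0 : H)
  have hn : ⟪u, u⟫_ℂ ≠ 0 := fun h => hu (inner_self_eq_zero.1 h)
  set k : ℂ := B u u / ⟪u, u⟫_ℂ with hk
  have hBk : ∀ v v' : H, B v v' = k * ⟪v, v'⟫_ℂ := fun v v' => by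
    rw [hk, div_mul_eq_mul_div, eq_div_iff hn, hswap v u v' u]
  set r : ℝ := ‖coeffL2 hS u u‖ ^ 2 / ‖u‖ ^ 4 with hr
  have hk' : k = (r : ℂ) := by
    have h := hint u u u u
    rw [← inner_coeffL2 hS hS, hBk, inner_self_eq_norm_sq_to_K, inner_self_eq_norm_sq_to_K] at h
    have hu' : ((‖u‖ : ℂ)) ≠ 0 := Complex.ofReal_ne_zero.2 (norm_ne_zero_iff.2 hu)
    rw [hr]
    push_cast
    rw [eq_div_iff (pow_ne_zero 4 hu'), show ((‖coeffL2 hS u u‖ : ℂ) ^ 2) =
      k * (‖u‖ : ℂ) ^ 2 * (‖u‖ : ℂ) ^ 2 from h]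
    ring
  have hr0 : 0 < r := by
    have h1 : 0 < ‖coeffL2 hS u u‖ := norm_pos_iff.2 (coeffL2_ne_zero hS hu)
    have h2 : 0 < ‖u‖ := norm_pos_iff.2 hu
    positivity
  refine ⟨r⁻¹, inv_pos.2 hr0, fun v w v' w' => ?_⟩
  rw [hint, hBk, hk', Complex.ofReal_inv, inv_inv]

/-- **Inequivalent representations have orthogonal coefficients.** -/
theorem coeff_orthogonal (hS : IsSquareIntegrableRep U) (hS' : IsSquareIntegrableRep U')
    (hne : ¬ ∃ e : H ≃ₗᵢ[ℂ] H', ∀ g x, e (U g x) = U' g (e x)) (v w : H) (v' w' : H') :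
    ∫ g, conj (coeff U' v' w' g) * coeff U v w g ∂(haar : Measure G) = 0 := by
  set A := (ContinuousLinearMap.adjoint (coeffL2 hS' v')).comp (coeffL2 hS v) with hA
  rw [← inner_coeffL2 hS hS', ← ContinuousLinearMap.adjoint_inner_right]
  suffices h0 : A = 0 by
    rw [show ContinuousLinearMap.adjoint (coeffL2 hS' v') (coeffL2 hS v w) = A w from rfl, h0,
      zero_apply, inner_zero_right]
  by_contra hA0
  have hAU : ∀ g x, A (U g x) = U' g (A x) := composite_intertwine hS hS' v v'
  have hisoU : ∀ g u, ‖U g u‖ = ‖u‖ := fun g => norm_of_mem_unitary (hS.irreducible.mem_unitary g)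
  have hisoU' : ∀ g u, ‖U' g u‖ = ‖u‖ :=
    fun g => norm_of_mem_unitary (hS'.irreducible.mem_unitary g)
  have hAadj := adjoint_intertwine hisoU hisoU' hAU
  obtain ⟨a, ha⟩ := exists_scalar hS.irreducible
    (S := (ContinuousLinearMap.adjoint A).comp A) fun g => ContinuousLinearMap.ext fun x => by
      show ContinuousLinearMap.adjoint A (A (U g x)) = U g (ContinuousLinearMap.adjoint A (A x))
      rw [hAU, hAadj]
  obtain ⟨b, hb⟩ := exists_scalar hS'.irreducible
    (S := A.comp (ContinuousLinearMap.adjoint A)) fun g => ContinuousLinearMap.ext fun x => by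
      show A (ContinuousLinearMap.adjoint A (U' g x)) = U' g (A (ContinuousLinearMap.adjoint A x))
      rw [hAadj, hAU]
  have hnorm : ∀ x, ((‖A x‖ : ℂ)) ^ 2 = a * (‖x‖ : ℂ) ^ 2 := fun x => by
    have h1 : ⟪x, ((ContinuousLinearMap.adjoint A).comp A) x⟫_ℂ = a * ⟪x, x⟫_ℂ := by
      rw [ha, _root_.smul_apply, one_apply_eq_self, inner_smul_right]
    rw [ContinuousLinearMap.comp_apply, ContinuousLinearMap.adjoint_inner_right,
      inner_self_eq_norm_sq_to_K, inner_self_eq_norm_sq_to_K] at h1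
    exact h1
  obtain ⟨x₀, hx₀⟩ : ∃ x, A x ≠ 0 := by
    by_contra h
    push Not at h
    exact hA0 (ContinuousLinearMap.ext h)
  have hx0 : x₀ ≠ 0 := fun e => hx₀ (by rw [e, map_zero])
  set t : ℝ := ‖A x₀‖ / ‖x₀‖ with ht
  have ht0 : 0 < t := div_pos (norm_pos_iff.2 hx₀) (norm_pos_iff.2 hx0)
  have hat : a = (t : ℂ) ^ 2 := by
    rw [ht, Complex.ofReal_div, div_pow, hnorm, mul_div_cancel_right₀]
    exact pow_ne_zero 2 (Complex.ofReal_ne_zero.2 (norm_ne_zero_iff.2 hx0))
  have hiso : ∀ x, ‖((t : ℂ)⁻¹ • A) x‖ = ‖x‖ := fun x => by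
    have h1 : ‖A x‖ ^ 2 = (t * ‖x‖) ^ 2 := by
      have := hnorm x
      rw [hat, ← mul_pow] at this
      exact_mod_cast this
    rw [_root_.smul_apply, norm_smul, norm_inv, Complex.norm_real, Real.norm_of_nonneg ht0.le,
      (pow_left_inj₀ (norm_nonneg _) (mul_nonneg ht0.le (norm_nonneg _)) two_ne_zero).1 h1,
      inv_mul_cancel_left₀ ht0.ne']
  have hb0 : b ≠ 0 := fun e => hx₀ (by
    rw [e, zero_smul] at hb
    have h1 : A (ContinuousLinearMap.adjoint A (A x₀)) = 0 := congrArg (fun S => S (A x₀)) hb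
    rw [show ContinuousLinearMap.adjoint A (A x₀) = a • x₀ from congrArg (fun S => S x₀) ha,
      map_smul, smul_eq_zero, hat] at h1
    exact h1.resolve_left (pow_ne_zero 2 (Complex.ofReal_ne_zero.2 ht0.ne')))
  let J : H →ₗᵢ[ℂ] H' := ⟨(((t : ℂ)⁻¹ • A : H →L[ℂ] H') : H →ₗ[ℂ] H'), hiso⟩
  have hsurj : Function.Surjective J := fun y =>
    ⟨((t : ℂ) / b) • ContinuousLinearMap.adjoint A y, by
      show (t : ℂ)⁻¹ • A (((t : ℂ) / b) • ContinuousLinearMap.adjoint A y) = y
      rw [map_smul,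
        show A (ContinuousLinearMap.adjoint A y) = b • y from congrArg (fun S => S y) hb,
        smul_smul, smul_smul, mul_assoc, div_mul_cancel₀ _ hb0,
        inv_mul_cancel₀ (Complex.ofReal_ne_zero.2 ht0.ne'), one_smul]⟩
  refine hne ⟨LinearIsometryEquiv.ofSurjective J hsurj, fun g x => ?_⟩
  rw [LinearIsometryEquiv.coe_ofSurjective]
  show (t : ℂ)⁻¹ • A (U g x) = U' g ((t : ℂ)⁻¹ • A x)
  rw [hAU, map_smul]

/-- **Embedding into the regular representation.** -/
theorem IsSquareIntegrableRep.exists_embedding (hS : IsSquareIntegrableRep U) :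
    ∃ J : H →ₗᵢ[ℂ] HaarL2 G, ∀ g x, J (U g x) = leftTranslation g (J x) := by
  obtain ⟨d, hd, hor⟩ := hS.exists_formalDegree
  haveI := hS.irreducible.nontrivial
  obtain ⟨v, hv⟩ := exists_ne (0 : H)
  set t : ℝ := Real.sqrt d / ‖v‖ with ht
  have ht0 : 0 < t := div_pos (Real.sqrt_pos.2 hd) (norm_pos_iff.2 hv)
  have hiso : ∀ x, ‖((t : ℂ) • coeffL2 hS v) x‖ = ‖x‖ := fun x => by
    have h := hor v x v x
    rw [← inner_coeffL2 hS hS, inner_self_eq_norm_sq_to_K, inner_self_eq_norm_sq_to_K,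
      inner_self_eq_norm_sq_to_K] at h
    have h1 : ‖coeffL2 hS v x‖ ^ 2 = d⁻¹ * ‖v‖ ^ 2 * ‖x‖ ^ 2 := by
      refine Complex.ofReal_injective ?_
      push_cast
      exact h
    have h2 : (t * ‖coeffL2 hS v x‖) ^ 2 = ‖x‖ ^ 2 := by
      rw [mul_pow, h1, ht, div_pow, Real.sq_sqrt hd.le]
      have := norm_ne_zero_iff.2 hv
      field_simp
    rw [_root_.smul_apply, norm_smul, Complex.norm_real, Real.norm_of_nonneg ht0.le]
    exact (pow_left_inj₀ (mul_nonneg ht0.le (norm_nonneg _)) (norm_nonneg _) two_ne_zero).1 h2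
  refine ⟨⟨(((t : ℂ) • coeffL2 hS v : H →L[ℂ] HaarL2 G) : H →ₗ[ℂ] HaarL2 G), hiso⟩, fun g x => ?_⟩
  show (t : ℂ) • coeffL2 hS v (U g x) = leftTranslation g ((t : ℂ) • coeffL2 hS v x)
  rw [coeffL2_translate, map_smul]

/-- A finite-dimensional square-integrable representation forces compactness. -/
theorem compactSpace_of_finiteDimensional (hS : IsSquareIntegrableRep U) [FiniteDimensional ℂ H] :
    CompactSpace G := by
  by_contra hc
  haveI : NoncompactSpace G := not_compactSpace_iff.1 hc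
  haveI := hS.irreducible.nontrivial
  obtain ⟨v, hv⟩ := exists_ne (0 : H)
  set b := stdOrthonormalBasis ℂ H
  have hsum : ∀ g, ∑ i, ‖coeff U v (b i) g‖ ^ 2 = ‖v‖ ^ 2 := fun g => by
    rw [← norm_of_mem_unitary (hS.irreducible.mem_unitary g) v, ← b.sum_sq_norm_inner_left (U g v)]
    rfl
  have hi : Integrable (fun _ : G => ‖v‖ ^ 2) (haar : Measure G) := by
    refine (integrable_finsetSum Finset.univ fun i _ => ((memLp_two_iff_integrable_sq_norm
      (hS.memLp v (b i)).1).1 (hS.memLp v (b i)))).congr (.of_forall fun g => ?_)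
    exact hsum g
  rcases integrable_const_iff.1 hi with h | h
  · exact pow_ne_zero 2 (norm_ne_zero_iff.2 hv) h
  · exact (h.measure_univ_lt_top).ne (measure_univ_of_isMulLeftInvariant _)

end FA.SquareIntegrable

end
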