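import Fermat.Agent.SquareIntegrable.Orthogonality
import Mathlib.Analysis.InnerProductSpace.l2Space
import Mathlib.Analysis.SpecialFunctions.Complex.Circle
import Mathlib.MeasureTheory.Group.ModularCharacter

/-!
# The Weyl group of the integers

The group `ℤ × circle × circle` with product `(n, z, t) (m, w, s) = (n + m, z w, t s w⁻ⁿ)` acts on
`ℓ²(ℤ)` by shifts and characters.  This representation is irreducible, and the coefficient of the
basis vector at `0` lives on the compact normal subgroup `n = 0`, so it is square integrable.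
-/

set_option autoImplicit false
set_option linter.unusedSectionVars false
set_option linter.style.haveILetI false

noncomputable section

open MeasureTheory MeasureTheory.Measure Topology Set Filter
open scoped ComplexConjugate InnerProductSpace ENNReal

namespace FA.SquareIntegrable

/-- The Weyl group of `ℤ`. -/
structure WeylZ where
  /-- The shift. -/
  n : ℤ
  /-- The character. -/
  z : Circle
  /-- The centre. -/
  t : Circle

namespace WeylZ

instance : Mul WeylZ := ⟨fun a b => ⟨a.n + b.n, a.z * b.z, a.t * b.t * b.z ^ (-a.n)⟩⟩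
instance : One WeylZ := ⟨⟨0, 1, 1⟩⟩
instance : Inv WeylZ := ⟨fun a => ⟨-a.n, a.z⁻¹, a.t⁻¹ * a.z ^ (-a.n)⟩⟩

theorem mul_def (a b : WeylZ) : a * b = ⟨a.n + b.n, a.z * b.z, a.t * b.t * b.z ^ (-a.n)⟩ := rfl

theorem inv_def (a : WeylZ) : a⁻¹ = ⟨-a.n, a.z⁻¹, a.t⁻¹ * a.z ^ (-a.n)⟩ := rfl

theorem one_def : (1 : WeylZ) = ⟨0, 1, 1⟩ := rfl

instance : Group WeylZ where
  mul_assoc a b c := by
    simp only [mul_def, mk.injEq, mul_zpow, neg_add, zpow_add, add_assoc, mul_assoc, true_and]
    simp [mul_comm, mul_left_comm, mul_assoc]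
  one_mul a := by simp [mul_def, one_def]
  mul_one a := by simp [mul_def, one_def]
  inv_mul_cancel a := by
    simp only [mul_def, inv_def, one_def, mk.injEq, neg_add_cancel, inv_mul_cancel, neg_neg,
      true_and]
    rw [mul_comm a.t⁻¹, mul_assoc (a.z ^ (-a.n)), inv_mul_cancel, mul_one, ← zpow_add,
      neg_add_cancel, zpow_zero]

/-- Coordinates. -/
def coords : WeylZ ≃ ℤ × Circle × Circle where
  toFun a := (a.n, a.z, a.t)
  invFun p := ⟨p.1, p.2.1, p.2.2⟩
  left_inv _ := rfl
  right_inv _ := rfl

instance : TopologicalSpace WeylZ := TopologicalSpace.induced coords inferInstance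

/-- The coordinates as a homeomorphism. -/
def coordsHomeo : WeylZ ≃ₜ ℤ × Circle × Circle := coords.toHomeomorphOfIsInducing ⟨rfl⟩

theorem continuous_n : Continuous fun a : WeylZ => a.n := continuous_fst.comp coordsHomeo.continuous

theorem continuous_z : Continuous fun a : WeylZ => a.z :=
  (continuous_fst.comp continuous_snd).comp coordsHomeo.continuous

theorem continuous_t : Continuous fun a : WeylZ => a.t :=
  (continuous_snd.comp continuous_snd).comp coordsHomeo.continuous

instance : T2Space WeylZ := coordsHomeo.symm.t2Space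

instance : LocallyCompactSpace WeylZ :=
  coordsHomeo.isClosedEmbedding.locallyCompactSpace

instance : SecondCountableTopology WeylZ := coordsHomeo.secondCountableTopology

theorem continuous_zpow_pair : Continuous fun p : ℤ × Circle => p.2 ^ p.1 :=
  continuous_prod_of_discrete_left.2 fun n => continuous_zpow n

instance : IsTopologicalGroup WeylZ where
  continuous_mul := by
    refine continuous_induced_rng.2 (((continuous_n.comp continuous_fst).add
      (continuous_n.comp continuous_snd)).prodMk (((continuous_z.comp continuous_fst).mul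
      (continuous_z.comp continuous_snd)).prodMk ?_))
    exact ((continuous_t.comp continuous_fst).mul (continuous_t.comp continuous_snd)).mul
      (continuous_zpow_pair.comp ((continuous_n.comp continuous_fst).neg.prodMk
        (continuous_z.comp continuous_snd)))
  continuous_inv := by
    refine continuous_induced_rng.2 (continuous_n.neg.prodMk (continuous_z.inv.prodMk ?_))
    exact continuous_t.inv.mul (continuous_zpow_pair.comp (continuous_n.neg.prodMk continuous_z))

theorem not_compact : ¬ CompactSpace WeylZ := fun h => by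
  haveI := coordsHomeo.compactSpace
  have h1 : IsCompact (univ : Set ℤ) := by
    simpa using (isCompact_univ (X := ℤ × Circle × Circle)).image continuous_fst
  exact Set.infinite_univ h1.finite_of_discrete

theorem exists_zpow_ne_one {k : ℤ} (hk : k ≠ 0) : ∃ z : Circle, z ^ k ≠ 1 := by
  refine ⟨Circle.exp (Real.pi / k), fun h => ?_⟩
  have h1 : (Circle.exp (Real.pi / k) : ℂ) ^ k = 1 := by
    rw [← Circle.coe_zpow, h, Circle.coe_one]
  rw [Circle.coe_exp, ← Complex.exp_int_mul] at h1
  have h2 : (k : ℂ) * (((Real.pi / k : ℝ) : ℂ) * Complex.I) = (Real.pi : ℂ) * Complex.I := by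
    push_cast
    field_simp
  rw [h2, Complex.exp_pi_mul_I] at h1
  norm_num at h1

theorem not_commutative : ∃ a b : WeylZ, a * b ≠ b * a := by
  obtain ⟨w, hw⟩ := exists_zpow_ne_one (k := -1) (by norm_num)
  refine ⟨⟨1, 1, 1⟩, ⟨0, w, 1⟩, fun h => hw ?_⟩
  have h1 := congrArg WeylZ.t h
  simpa [mul_def] using h1

/-- The compact subgroup `n = 0`. -/
def fibre : Set WeylZ := (fun a => a.n) ⁻¹' {0}

theorem isOpen_fibre : IsOpen fibre := (isOpen_discrete {0}).preimage continuous_n

theorem isCompact_fibre : IsCompact fibre := by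
  have h : fibre = coordsHomeo ⁻¹' (({0} : Set ℤ) ×ˢ (univ : Set (Circle × Circle))) := by
    ext a
    simp [fibre, coordsHomeo, coords]
  rw [h]
  exact coordsHomeo.isCompact_preimage.2 (isCompact_singleton.prod isCompact_univ)

variable [MeasurableSpace WeylZ] [BorelSpace WeylZ]

theorem haar_fibre_pos : 0 < (haar : Measure WeylZ).real fibre :=
  ENNReal.toReal_pos (isOpen_fibre.measure_pos _ ⟨1, rfl⟩).ne' isCompact_fibre.measure_lt_top.ne

instance unimodular : (haar : Measure WeylZ).IsMulRightInvariant := by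
  refine ⟨fun g => ?_⟩
  have h := congrArg (fun m : Measure WeylZ => m fibre)
    (map_right_mul_eq_modularCharacterFun_smul (haar : Measure WeylZ) g)
  have e : (fun x : WeylZ => x * g) ⁻¹' fibre = (fun x : WeylZ => g * x) ⁻¹' fibre := by
    ext x
    simp [fibre, mul_def, add_comm]
  simp only [Measure.map_apply (measurable_mul_const g) isOpen_fibre.measurableSet, e,
    measure_preimage_mul, Measure.smul_apply] at h
  have hne : (haar : Measure WeylZ) fibre ≠ 0 := (isOpen_fibre.measure_pos _ ⟨1, rfl⟩).ne'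
  have h3 : (1 : ℝ≥0∞) * (haar : Measure WeylZ) fibre =
      (modularCharacterFun g : ℝ≥0∞) * (haar : Measure WeylZ) fibre := by
    rw [one_mul]
    exact h
  have hΔ : modularCharacterFun g = 1 := by
    exact_mod_cast ((ENNReal.mul_left_inj hne isCompact_fibre.measure_lt_top.ne).1 h3).symm
  rw [map_right_mul_eq_modularCharacterFun_smul, hΔ, one_smul]

end WeylZ

/-- `ℓ²(ℤ)`. -/
abbrev SeqZ : Type := lp (fun _ : ℤ => ℂ) 2

namespace WeylZ

/-- The shifted and twisted sequence. -/
def shiftSeq (a : WeylZ) (x : ℤ → ℂ) (k : ℤ) : ℂ := (a.t : ℂ) * (a.z : ℂ) ^ k * x (k - a.n)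

theorem norm_shiftSeq (a : WeylZ) (x : ℤ → ℂ) (k : ℤ) : ‖shiftSeq a x k‖ = ‖x (k - a.n)‖ := by
  simp [shiftSeq, norm_zpow]

theorem memℓp_shiftSeq (a : WeylZ) (x : SeqZ) : Memℓp (shiftSeq a x) 2 := by
  refine memℓp_gen ?_
  simp only [norm_shiftSeq]
  exact ((Equiv.subRight a.n).summable_iff
    (f := fun k => ‖x k‖ ^ (2 : ℝ≥0∞).toReal)).2 ((memℓp_gen_iff (by norm_num)).1 (lp.memℓp x))

/-- The operator of a group element. -/
def shiftOp (a : WeylZ) : SeqZ →ₗᵢ[ℂ] SeqZ where
  toFun x := ⟨shiftSeq a x, memℓp_shiftSeq a x⟩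
  map_add' x y := lp.ext (funext fun k => by simp [shiftSeq, mul_add])
  map_smul' c x := lp.ext (funext fun k => by simp [shiftSeq, mul_left_comm])
  norm_map' x := by
    have h2 : (0 : ℝ) < (2 : ℝ≥0∞).toReal := by norm_num
    refine (Real.rpow_left_inj (norm_nonneg _) (norm_nonneg _) h2.ne').1 ?_
    rw [lp.norm_rpow_eq_tsum h2, lp.norm_rpow_eq_tsum h2]
    show ∑' k, ‖shiftSeq a x k‖ ^ (2 : ℝ≥0∞).toReal = _
    simp only [norm_shiftSeq]
    exact (Equiv.subRight a.n).tsum_eq fun k => ‖x k‖ ^ (2 : ℝ≥0∞).toReal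

theorem shiftOp_apply (a : WeylZ) (x : SeqZ) (k : ℤ) :
    shiftOp a x k = (a.t : ℂ) * (a.z : ℂ) ^ k * x (k - a.n) := rfl

/-- The representation. -/
def rep : WeylZ →* (SeqZ →L[ℂ] SeqZ) where
  toFun a := (shiftOp a).toContinuousLinearMap
  map_one' := ContinuousLinearMap.ext fun x => lp.ext (funext fun k => by
    show shiftOp 1 x k = x k
    simp [shiftOp_apply, one_def])
  map_mul' a b := ContinuousLinearMap.ext fun x => lp.ext (funext fun k => by
    show shiftOp (a * b) x k = shiftOp a (shiftOp b x) k
    simp only [shiftOp_apply, mul_def, Circle.coe_mul, Circle.coe_zpow, mul_zpow, sub_sub]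
    rw [sub_eq_add_neg k a.n, zpow_add₀ (Circle.coe_ne_zero b.z)]
    ring)

theorem rep_apply (a : WeylZ) (x : SeqZ) (k : ℤ) :
    rep a x k = (a.t : ℂ) * (a.z : ℂ) ^ k * x (k - a.n) := rfl

theorem norm_rep (a : WeylZ) (x : SeqZ) : ‖rep a x‖ = ‖x‖ := (shiftOp a).norm_map x

theorem rep_single (a : WeylZ) (j : ℤ) (c : ℂ) :
    rep a (lp.single 2 j c) =
      ((a.t : ℂ) * (a.z : ℂ) ^ (j + a.n)) • (lp.single 2 (j + a.n) c : SeqZ) := by
  refine lp.ext (funext fun k => ?_)
  rw [rep_apply, lp.coeFn_smul, Pi.smul_apply, lp.single_apply, lp.single_apply]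
  rcases eq_or_ne k (j + a.n) with rfl | h
  · simp
  · rw [Pi.single_eq_of_ne h, Pi.single_eq_of_ne fun e => h (by rw [← e, sub_add_cancel]),
      mul_zero, smul_zero]

theorem star_rep (a : WeylZ) : star (rep a) = rep a⁻¹ := by
  letI : MeasurableSpace WeylZ := borel _
  haveI : BorelSpace WeylZ := ⟨rfl⟩
  exact FA.GelfandRaikov.star_eq_inv rep norm_rep a

theorem mem_unitary_rep (a : WeylZ) : rep a ∈ unitary (SeqZ →L[ℂ] SeqZ) := by
  rw [Unitary.mem_iff, star_rep, ← map_mul, ← map_mul,
    inv_mul_cancel, mul_inv_cancel, map_one]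
  exact ⟨rfl, rfl⟩

/-- The orbits are continuous. -/
theorem continuous_rep (x : SeqZ) : Continuous fun a => rep a x := by
  have hsingle : ∀ j : ℤ, Continuous fun a => rep a (lp.single 2 j (x j) : SeqZ) := fun j => by
    let F : ℤ × Circle × Circle → SeqZ := fun p =>
      ((p.2.2 : ℂ) * (p.2.1 : ℂ) ^ (j + p.1)) • (lp.single 2 (j + p.1) (x j) : SeqZ)
    have hF : Continuous F := continuous_prod_of_discrete_left.2 fun n => by
      show Continuous fun p : Circle × Circle =>
        ((p.2 : ℂ) * (p.1 : ℂ) ^ (j + n)) • (lp.single 2 (j + n) (x j) : SeqZ)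
      exact ((continuous_subtype_val.comp continuous_snd).mul ((continuous_subtype_val.comp
        continuous_fst).zpow₀ (j + n) fun p => Or.inl (Circle.coe_ne_zero p.1))).smul
          continuous_const
    exact (hF.comp coordsHomeo.continuous).congr fun a => (rep_single a j (x j)).symm
  have hu : TendstoUniformly (fun (s : Finset ℤ) a => rep a (∑ j ∈ s, (lp.single 2 j (x j) : SeqZ)))
      (fun a => rep a x) atTop := Metric.tendstoUniformly_iff.2 fun ε hε => by
    have h := Metric.tendsto_nhds.1 (lp.hasSum_single ENNReal.ofNat_ne_top x) ε hε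
    filter_upwards [h] with s hs a
    rw [dist_eq_norm, ← map_sub, norm_rep, ← dist_eq_norm, dist_comm]
    exact hs
  refine hu.continuous (Frequently.of_forall fun s => ?_)
  simp only [_root_.map_sum]
  exact continuous_finsetSum _ fun j _ => hsingle j

theorem scalar_of_commute (S : SeqZ →L[ℂ] SeqZ) (h : ∀ a, Commute S (rep a)) :
    ∃ c : ℂ, S = c • 1 := by
  have hc : ∀ a x, S (rep a x) = rep a (S x) := fun a x => congrArg (fun T => T x) (h a).eq
  have hdiag : ∀ j k, k ≠ j → S (lp.single 2 j 1) k = 0 := fun j k hkj => by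
    obtain ⟨z, hz⟩ := exists_zpow_ne_one (sub_ne_zero.2 hkj)
    have h1 := congrArg (fun v : SeqZ => v k) (hc ⟨0, z, 1⟩ (lp.single 2 j 1))
    simp only [rep_single, add_zero, Circle.coe_one, one_mul, map_smul, rep_apply, sub_zero,
      lp.coeFn_smul, Pi.smul_apply, smul_eq_mul] at h1
    by_contra hne
    refine hz (Circle.ext ?_)
    rw [Circle.coe_zpow, Circle.coe_one, zpow_sub₀ (Circle.coe_ne_zero z),
      div_eq_one_iff_eq (zpow_ne_zero j (Circle.coe_ne_zero z))]
    exact (mul_right_cancel₀ hne h1).symm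
  refine ⟨S (lp.single 2 0 1) 0, ?_⟩
  have hS : ∀ j, S (lp.single 2 j 1) =
      S (lp.single 2 0 1) 0 • (lp.single 2 j 1 : SeqZ) := fun j => by
    refine lp.ext (funext fun k => ?_)
    rw [lp.coeFn_smul, Pi.smul_apply, lp.single_apply]
    rcases eq_or_ne k j with rfl | hkj
    · have h1 := congrArg (fun v : SeqZ => v k) (hc ⟨k, 1, 1⟩ (lp.single 2 0 1))
      simp only [rep_single, zero_add, Circle.coe_one, one_mul, one_zpow, one_smul,
        rep_apply, sub_self] at h1
      rw [Pi.single_eq_same, smul_eq_mul, mul_one]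
      exact h1
    · rw [hdiag j k hkj, Pi.single_eq_of_ne hkj, smul_zero]
  refine ContinuousLinearMap.ext fun x => ?_
  have h1 := (lp.hasSum_single ENNReal.ofNat_ne_top x).mapL S
  have h2 : HasSum (fun j : ℤ => S (lp.single 2 j (x j))) (S (lp.single 2 0 1) 0 • x) := by
    refine ((lp.hasSum_single ENNReal.ofNat_ne_top x).const_smul
      (S (lp.single 2 0 1) 0)).congr_fun fun j => ?_
    rw [show (lp.single 2 j (x j) : SeqZ) = x j • lp.single 2 j 1 by
      rw [← lp.single_smul, smul_eq_mul, mul_one], map_smul, hS, smul_comm]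
  rw [_root_.smul_apply, one_apply_eq_self]
  exact h1.unique h2

/-- **The representation is irreducible.** -/
theorem isIrreducible_rep : FA.GelfandRaikov.IsIrreducibleUnitary rep where
  nontrivial := nontrivial_of_ne (lp.single 2 0 1 : SeqZ) 0 fun e => by
    simpa using congrArg (fun v : SeqZ => v 0) e
  mem_unitary := mem_unitary_rep
  continuous_apply := continuous_rep
  no_invariant W hW hinv := by
    haveI : CompleteSpace W := hW.completeSpace_coe
    have horth : ∀ a, ∀ w ∈ Wᗮ, rep a w ∈ Wᗮ := fun a w hw => by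
      rw [Submodule.mem_orthogonal'] at hw ⊢
      intro v hv
      rw [← ContinuousLinearMap.adjoint_inner_right, ← ContinuousLinearMap.star_eq_adjoint,
        star_rep]
      exact hw _ (hinv _ v hv)
    obtain ⟨c, hc⟩ := scalar_of_commute W.starProjection fun a =>
      ContinuousLinearMap.ext fun x => Submodule.eq_starProjection_of_mem_orthogonal'
        (hinv a _ (W.starProjection_apply_mem x))
        (horth a _ (W.sub_starProjection_mem_orthogonal x))
        (by rw [mul_apply_eq_comp, ← map_add, add_sub_cancel]; rfl)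
    rcases eq_or_ne c 0 with hc0 | hc0
    · refine Or.inl ((Submodule.eq_bot_iff W).2 fun w hw => ?_)
      rw [← Submodule.starProjection_eq_self_iff.2 hw, hc, hc0, zero_smul, zero_apply]
    · refine Or.inr (Submodule.eq_top_iff'.2 fun x => ?_)
      have h1 : W.starProjection (c⁻¹ • x) = x := by
        rw [hc, _root_.smul_apply, one_apply_eq_self, smul_smul, mul_inv_cancel₀ hc0, one_smul]
      exact h1 ▸ W.starProjection_apply_mem _

variable [MeasurableSpace WeylZ] [BorelSpace WeylZ]

theorem norm_coeff_zero (a : WeylZ) :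
    ‖coeff rep (lp.single 2 0 1 : SeqZ) (lp.single 2 0 1) a‖ = fibre.indicator 1 a := by
  rw [coeff, rep_single, zero_add, inner_smul_left, lp.inner_single_left, lp.single_apply]
  by_cases h : a.n = 0
  · rw [indicator_of_mem (show a ∈ fibre from h)]
    simp [h]
  · rw [indicator_of_notMem (show a ∉ fibre from h), Pi.single_eq_of_ne h]
    simp

theorem hasCompactSupport_coeff_zero :
    HasCompactSupport (coeff rep (lp.single 2 0 1 : SeqZ) (lp.single 2 0 1)) := by
  refine HasCompactSupport.intro isCompact_fibre fun a ha => norm_eq_zero.1 ?_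
  rw [norm_coeff_zero, indicator_of_notMem ha]

/-- **The representation is square integrable.** -/
theorem isSquareIntegrable_rep : IsSquareIntegrableRep rep := by
  refine ⟨isIrreducible_rep, lp.single 2 0 1, lp.single 2 0 1, fun h => ?_,
    (continuous_coeff continuous_rep _ _).memLp_of_hasCompactSupport hasCompactSupport_coeff_zero⟩
  have h1 := norm_coeff_zero (1 : WeylZ)
  rw [h, indicator_of_mem (show (1 : WeylZ) ∈ fibre from rfl)] at h1
  simp at h1

theorem integral_coeff_zero :
    ∫ a, conj (coeff rep (lp.single 2 0 1 : SeqZ) (lp.single 2 0 1) a) *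
      coeff rep (lp.single 2 0 1 : SeqZ) (lp.single 2 0 1) a ∂(haar : Measure WeylZ) =
        ((haar : Measure WeylZ).real fibre : ℂ) := by
  rw [← setIntegral_eq_integral_of_forall_compl_eq_zero (s := fibre) fun a ha => by
    have h0 := norm_coeff_zero a
    rw [indicator_of_notMem ha, norm_eq_zero] at h0
    rw [h0, mul_zero]]
  rw [setIntegral_congr_fun (g := fun _ => (1 : ℂ)) isOpen_fibre.measurableSet fun a ha => ?_,
    setIntegral_const, Complex.real_smul, mul_one]
  show conj _ * _ = _
  rw [← Complex.normSq_eq_conj_mul_self, Complex.normSq_eq_norm_sq, norm_coeff_zero,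
    indicator_of_mem ha]
  simp

end WeylZ

end FA.SquareIntegrable

end
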